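import Fermat.Agent.S59.Arch.Glue
import Fermat.Agent.S54.FrobExists

/-!
# Row S59 — the two small inputs of `rt_of_mlt` (helper156)

* `coeffStatement : Arch.CoeffStatement`  (`ℤ_[p]` is a complete DVR of characteristic zero with
  finite residue field and `p ∈ 𝔪`);
* `frobExistsStatement : Arch.FrobExistsStatement` (from `Fermat.Agent.S54.exists_frobenius`);
* `rt_of_curveRep_mlt : CurveRepStatement → SemistableMLTStatement → RTStatement`.
-/

set_option autoImplicit false

namespace Fermat.Agent.S59.H156

open Fermat.Agent.S59.Arch Fermat.Agent.S59.H239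

/-- The residue field of `ℤ_[p]` is finite. -/
theorem finite_residueField_padicInt (p : ℕ) [Fact p.Prime] :
    Finite (IsLocalRing.ResidueField ℤ_[p]) := by
  haveI : Finite (ZMod p) := inferInstance
  exact Finite.of_equiv (ZMod p) (PadicInt.residueField (p := p)).symm.toEquiv

/-- `p` lies in the maximal ideal of `ℤ_[p]`. -/
theorem natCast_mem_maximalIdeal_padicInt (p : ℕ) [Fact p.Prime] :
    (p : ℤ_[p]) ∈ IsLocalRing.maximalIdeal ℤ_[p] := by
  rw [PadicInt.maximalIdeal_eq_span_p]
  exact Ideal.subset_span rfl

/-- **COEFF.**  A coefficient ring exists for every prime `p`: `ℤ_[p]`. -/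
theorem coeffStatement : CoeffStatement := by
  intro p hp
  haveI : Fact p.Prime := ⟨hp⟩
  exact ⟨ℤ_[p], inferInstance, inferInstance, inferInstance, inferInstance,
    finite_residueField_padicInt p, inferInstance, natCast_mem_maximalIdeal_padicInt p⟩

/-- **FROB.**  Frobenius elements exist over every prime. -/
theorem frobExistsStatement : FrobExistsStatement :=
  fun ℓ hℓ => Fermat.Agent.S54.exists_frobenius ℓ hℓ

/-- (RT) from the curve representation and the modularity lifting theorem in point form. -/
theorem rt_of_curveRep_mlt (hE : CurveRepStatement) (hMLT : SemistableMLTStatement) :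
    RTStatement :=
  rt_of_mlt coeffStatement frobExistsStatement hE hMLT

end Fermat.Agent.S59.H156
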